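/-
S35-GEO, supplier for L6(b) (helper53): the hypothesis `hβj` of the crossing-point blocks on the
concrete model `S34.H30.stdV` — the `β`-image of the standard base function lies in the finite
chart `C₁ = chart A₀ (α x₀)` — over an ARBITRARY normal number field `K₀`, in one call of
`S34.H43.hbetaC_ratForm` (no case split on the base function).
-/
import Fermat.Agent.S34.H43.BetaChart
import Fermat.Agent.S34.H30.Leaves

set_option autoImplicit false
set_option linter.style.haveILetI false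
set_option linter.unusedSectionVars false

open AlgebraicCurve ModularCurve

noncomputable section

namespace Fermat.Agent.S35.H53

open Fermat.Agent.S34.H30 Fermat.Agent.S18 Fermat.Agent.S18.H74 Fermat.Agent.S18.H19
  Fermat.Agent.S34.H19 Fermat.Agent.S34.H61 Fermat.Agent.S34.H64

/-- `β x₀ ∈ C₁` on the concrete model, for the standard base function. -/
theorem betaj_mem_chart_stdV {M q : ℕ} [NeZero M] [Fact q.Prime] {hqM : ¬ q ∣ M}
    {A : ValuationSubring Kb} {hA : A.LiesOverPrime q} (hAtop : A ≠ ⊤)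
    {O₁ : ValuationSubring (FN (M * q))} {w : FN (M * q) ≃+* FN (M * q)}
    (hTG : TwoGauss M q hqM A hA O₁ w) (x₀ : FN M) (hx₀ : IsBase M q hqM A hA x₀)
    (hB : StdB M q x₀) (K₀ : IntermediateField ℚ Kb) [FiniteDimensional ℚ K₀] [Normal ℚ K₀]
    (ϖ : ↥(A.comap (algebraMap K₀ Kb))) (j : ↥(ratForm (M * q) K₀))
    (hj : (j : FN (M * q)) = heckeAlphaBar Kb M q x₀) (τ : Kb ≃ₐ[ℚ] Kb) :
    ∀ j₂ : ↥(ratForm (M * q) K₀), (j₂ : FN (M * q)) = heckeBetaBar Kb M q x₀ →
      j₂ ∈ (stdV M q A hAtop O₁ w K₀ ϖ j τ).C₁ := by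
  haveI : NeZero q := ⟨(Fact.out : q.Prime).ne_zero⟩
  haveI := Fermat.Agent.S34.H78.isDVR_comap hAtop K₀
  have hxm : x₀ ∈ ratForm M K₀ := mem_ratForm_of_mem_range M K₀ hx₀.1
  letI := algComap (A.comap (algebraMap K₀ Kb)) (ratForm M K₀)
  letI := algComap (A.comap (algebraMap K₀ Kb)) (ratForm (M * q) K₀)
  have h := Fermat.Agent.S34.H43.hbetaC_ratForm hTG x₀ hx₀ hB K₀ hxm ⟨x₀, hxm⟩
    (self_mem_chart _ _)
  have hjeq : j = alphaForm M q K₀ ⟨x₀, hxm⟩ := Subtype.ext hj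
  intro j₂ hj₂
  have hj₂eq : j₂ = betaForm M q K₀ ⟨x₀, hxm⟩ := Subtype.ext hj₂
  rw [hj₂eq]
  show betaForm M q K₀ ⟨x₀, hxm⟩ ∈ chart ↥(A.comap (algebraMap K₀ Kb)) j
  rw [hjeq]
  exact h

end Fermat.Agent.S35.H53
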