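/-
S35-GEO, leaf (L6b) on the concrete model (helper53): the closed points of the finite chart of
`S34.H30.stdV` lying on both components are crossing points (`H27.Crossing`), for the standard
base function — entirely at the level of the normal number field `K₀` (no inertia field, no
transfer, no regular node).

* `cross36_stdV` : conj 3 (`S₀ c ≡ c ^ (q²) (mod x)`, `H57.crossing_frob_val`) and conj 6
  (transversality, `H53.crossing_fib_val`) from ONE instantiation: the two Kronecker congruences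
  on the `K₀`-forms (`S34.H34.kron1_ratForm`, `kron2_ratForm`), residue degree one on the first
  component (`S34.H68.exists_sub_chartMap_mem`), `β (chart x₀) ⊆ chart (α x₀)`
  (`S34.H43.hbetaC_ratForm`), and the special fibre of the chart of level `M` is a Dedekind domain
  (`S34.H78.chart_dedekind_of_dsetup`);
* `crossFrobLeafB₁_std` : `H27.CrossFrobLeafB₁ H30.StdB`, with conj 4/5 from helper95's
  `S35.H95.branchNormal_stdV_of_both`.
-/
import Fermat.Agent.S35.H53.CrossFib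
import Fermat.Agent.S35.H53.BetaJ
import Fermat.Agent.S35.H95.BranchStd
import Fermat.Agent.S35.H27.FrobRootB
import Fermat.Agent.S34.H34.FrobForm
import Fermat.Agent.S34.H68.CrossChart
import Fermat.Agent.S34.H43.BetaChart
import Fermat.Agent.S34.H78.ChartBase

set_option autoImplicit false
set_option linter.style.haveILetI false
set_option linter.unusedSectionVars false
set_option linter.unusedVariables false

open AlgebraicCurve ModularCurve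

noncomputable section

namespace Fermat.Agent.S35.H53

open Fermat.Agent.S34.H27 Fermat.Agent.S34.H30 Fermat.Agent.S34.H10
  Fermat.Agent.S18 Fermat.Agent.S18.H74 Fermat.Agent.S18.H19 Fermat.Agent.S34.H19
  Fermat.Agent.S34.H61 Fermat.Agent.S34.H64 Fermat.Agent.S35.H27

section Std

variable (M q : ℕ) [NeZero M] [hqF : Fact q.Prime] (hqM : ¬ q ∣ M)
  (A : ValuationSubring Kb) (hA : A.LiesOverPrime q) (hAtop : A ≠ ⊤)
  (O₁ : ValuationSubring (FN (M * q))) (w : FN (M * q) ≃+* FN (M * q))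

set_option maxHeartbeats 1600000 in
set_option synthInstance.maxHeartbeats 200000 in
/-- **Conj 3 and conj 6 of `H27.Crossing`** at a prime of the finite chart of the concrete model
containing both components, for the standard base function. -/
theorem cross36_stdV (hTG : TwoGauss M q hqM A hA O₁ w) (x₀ : FN M)
    (hx₀ : IsBase M q hqM A hA x₀) (hB : StdB M q x₀)
    (K₀ : IntermediateField ℚ Kb) [FiniteDimensional ℚ K₀] [Normal ℚ K₀]
    (ϖ : ↥(A.comap (algebraMap K₀ Kb))) (hϖ : Irreducible ϖ)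
    (j : ↥(ratForm (M * q) K₀)) (hj : (j : FN (M * q)) = heckeAlphaBar Kb M q x₀)
    (τ σ : Kb ≃ₐ[ℚ] Kb) (hσ : A.IsFrobeniusAt σ q)
    (x : Ideal ↥(stdV M q A hAtop O₁ w K₀ ϖ j τ).C₁) [hx : x.IsPrime]
    (hboth : Both (stdV M q A hAtop O₁ w K₀ ϖ j τ).V₁ (stdV M q A hAtop O₁ w K₀ ϖ j τ).V₂
      (stdV M q A hAtop O₁ w K₀ ϖ j τ).C₁ x) :
    (∀ c : ↥(stdV M q A hAtop O₁ w K₀ ϖ j τ).C₁,
      ∃ d : ↥(stdV M q A hAtop O₁ w K₀ ϖ j τ).C₁, d ∈ x ∧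
        frobSq (M * q) K₀ σ (c : (stdV M q A hAtop O₁ w K₀ ϖ j τ).F₀) =
          (c : (stdV M q A hAtop O₁ w K₀ ϖ j τ).F₀) ^ (q ^ 2) +
            (d : (stdV M q A hAtop O₁ w K₀ ϖ j τ).F₀)) ∧
    (∀ r : ↥(stdV M q A hAtop O₁ w K₀ ϖ j τ).C₁, r ∈ x →
      ∃ p₁ p₂ s : ↥(stdV M q A hAtop O₁ w K₀ ϖ j τ).C₁, s ∉ x ∧
        (p₁ : (stdV M q A hAtop O₁ w K₀ ϖ j τ).F₀) ∈
          (stdV M q A hAtop O₁ w K₀ ϖ j τ).V₁.nonunits ∧
        (p₂ : (stdV M q A hAtop O₁ w K₀ ϖ j τ).F₀) ∈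
          (stdV M q A hAtop O₁ w K₀ ϖ j τ).V₂.nonunits ∧ s * r = p₁ + p₂) := by
  have hqp : q.Prime := hqF.out
  haveI : NeZero q := ⟨hqp.ne_zero⟩
  letI algM := algComap (A.comap (algebraMap K₀ Kb)) (ratForm M K₀)
  letI algK := algComap (A.comap (algebraMap K₀ Kb)) (ratForm (M * q) K₀)
  haveI hdvr : IsDiscreteValuationRing ↥(A.comap (algebraMap K₀ Kb)) :=
    Fermat.Agent.S34.H78.isDVR_comap hAtop K₀
  haveI : FaithfulSMul ↥(A.comap (algebraMap K₀ Kb)) ↥(ratForm M K₀) :=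
    Fermat.Agent.S34.H78.faithfulSMul_comap A K₀ (ratForm M K₀)
  have hxK : x₀ ∈ ratForm M K₀ := Fermat.Agent.S34.H61.mem_ratForm_of_mem_range M K₀ hx₀.1
  obtain ⟨hS, hS'⟩ := hx₀.2 K₀ hxK
  have hdeg := Fermat.Agent.S34.H59.finrank_alphaForm M q K₀ hqp hqM
  have hgood := Fermat.Agent.S34.H61.vGood_ratForm_of_finrank hTG K₀ ϖ hϖ
    (⟨x₀, hxK⟩ : ↥(ratForm M K₀)) hS hS' hdeg
  have hdvrO : IsDiscreteValuationRing ↥(Fermat.Agent.S34.H61.gaussForm M hqM A hA K₀) :=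
    Fermat.Agent.S34.H10.isDiscreteValuationRing_of_dsetup hϖ hS
  letI algα : Algebra ↥(ratForm M K₀) ↥(ratForm (M * q) K₀) :=
    Fermat.Agent.S34.H61.algAlpha M q K₀
  haveI tow : IsScalarTower ↥(A.comap (algebraMap K₀ Kb)) ↥(ratForm M K₀)
      ↥(ratForm (M * q) K₀) := Fermat.Agent.S34.H61.isScalarTower_algAlpha M q K₀ A
  have hT := Fermat.Agent.S34.H61.twoExt_ratForm hTG K₀ hdvrO hdeg
  obtain rfl : j = Fermat.Agent.S34.H61.alphaForm M q K₀ (⟨x₀, hxK⟩ : ↥(ratForm M K₀)) :=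
    Subtype.ext hj
  -- the Frobenius twist
  have hsd : σ ∈ A.decompositionSubgroup ℚ := hσ.mem_decompositionSubgroup
  have hE : ∀ a ∈ K₀, σ a ∈ K₀ := fun a ha =>
    Fermat.Agent.S34.H61.map_mem_of_normal K₀ σ ha
  have hE' : ∀ a ∈ K₀, σ.symm a ∈ K₀ := fun a ha =>
    Fermat.Agent.S34.H61.map_mem_of_normal K₀ σ.symm ha
  have hc₁ : ∀ v : ↥(ratForm M K₀),
      algebraMap ↥(ratForm M K₀) ↥(ratForm (M * q) K₀) v ∈
        Fermat.Agent.S34.H61.gaussOne M q O₁ K₀ ↔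
          v ∈ Fermat.Agent.S34.H61.gaussForm M hqM A hA K₀ :=
    fun v => Fermat.Agent.S34.H61.alphaForm_mem_comap_iff hTG K₀ v
  -- the two degeneracy maps on the chart of level `M`
  let α' : ↥(chart ↥(A.comap (algebraMap K₀ Kb)) (⟨x₀, hxK⟩ : ↥(ratForm M K₀))) →+*
      ↥(ratForm (M * q) K₀) :=
    (Fermat.Agent.S34.H61.alphaForm M q K₀).comp
      (chart ↥(A.comap (algebraMap K₀ Kb)) (⟨x₀, hxK⟩ : ↥(ratForm M K₀))).val.toRingHom
  let β' : ↥(chart ↥(A.comap (algebraMap K₀ Kb)) (⟨x₀, hxK⟩ : ↥(ratForm M K₀))) →+*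
      ↥(ratForm (M * q) K₀) :=
    (Fermat.Agent.S34.H61.betaForm M q K₀).comp
      (chart ↥(A.comap (algebraMap K₀ Kb)) (⟨x₀, hxK⟩ : ↥(ratForm M K₀))).val.toRingHom
  have hαC : ∀ g, α' g ∈ chart ↥(A.comap (algebraMap K₀ Kb))
      (Fermat.Agent.S34.H61.alphaForm M q K₀ (⟨x₀, hxK⟩ : ↥(ratForm M K₀))) := fun g =>
    Fermat.Agent.S34.H68.algebraMap_mem_chart (L := ↥(ratForm (M * q) K₀))
      (⟨x₀, hxK⟩ : ↥(ratForm M K₀)) g
  have hβC : ∀ g, β' g ∈ chart ↥(A.comap (algebraMap K₀ Kb))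
      (Fermat.Agent.S34.H61.alphaForm M q K₀ (⟨x₀, hxK⟩ : ↥(ratForm M K₀))) := fun g =>
    Fermat.Agent.S34.H43.hbetaC_ratForm hTG x₀ hx₀ hB K₀ hxK g g.2
  let s : ↥(chart ↥(A.comap (algebraMap K₀ Kb)) (⟨x₀, hxK⟩ : ↥(ratForm M K₀))) ≃+*
      ↥(chart ↥(A.comap (algebraMap K₀ Kb)) (⟨x₀, hxK⟩ : ↥(ratForm M K₀))) :=
    resEquiv (chart ↥(A.comap (algebraMap K₀ Kb)) (⟨x₀, hxK⟩ : ↥(ratForm M K₀)))
      (Fermat.Agent.S34.H34.tauFormOn M K₀ σ hE hE')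
      (fun c => Fermat.Agent.S34.H34.tauFormOn_mem_chart_iff M K₀ σ A hE hE' hsd
        (⟨x₀, hxK⟩ : ↥(ratForm M K₀)) hx₀.1 c)
  have kron1 : ∀ g, β' g - α' (s.symm g) ^ q ∈
      (Fermat.Agent.S34.H61.gaussOne M q O₁ K₀).nonunits := fun g =>
    Fermat.Agent.S34.H34.kron1_ratForm hTG K₀ σ hσ hE hE' (g : ↥(ratForm M K₀))
      (Fermat.Agent.S18.H80.ds_chart_le hS _ g.2)
  have kron2 : ∀ g, α' g - β' (s.symm g) ^ q ∈
      (Fermat.Agent.S34.H61.gaussTwoForm M q O₁ w K₀).nonunits := fun g =>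
    Fermat.Agent.S34.H34.kron2_ratForm hTG K₀ σ hσ hE hE' (g : ↥(ratForm M K₀))
      (Fermat.Agent.S18.H80.ds_chart_le hS _ g.2)
  have surj1 : ∀ c ∈ chart ↥(A.comap (algebraMap K₀ Kb))
      (Fermat.Agent.S34.H61.alphaForm M q K₀ (⟨x₀, hxK⟩ : ↥(ratForm M K₀))),
      ∃ g, c - α' g ∈ (Fermat.Agent.S34.H61.gaussOne M q O₁ K₀).nonunits := by
    intro c hc
    obtain ⟨a, ha⟩ := Fermat.Agent.S34.H68.exists_sub_chartMap_mem ϖ hϖ
      (Fermat.Agent.S34.H61.gaussForm M hqM A hA K₀) (⟨x₀, hxK⟩ : ↥(ratForm M K₀)) hS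
      (Fermat.Agent.S34.H61.gaussOne M q O₁ K₀) (Fermat.Agent.S34.H61.gaussTwoForm M q O₁ w K₀)
      hc₁ hT ⟨c, hc⟩
    exact ⟨a, ha⟩
  have htw := Fermat.Agent.S34.H61.tauForm_twoGauss_iff hTG K₀ σ hsd
  refine ⟨fun c => ?_, ?_⟩
  · -- conj 3
    exact Fermat.Agent.S35.H57.crossing_frob_val
      (chart ↥(A.comap (algebraMap K₀ Kb))
        (Fermat.Agent.S34.H61.alphaForm M q K₀ (⟨x₀, hxK⟩ : ↥(ratForm M K₀)))) x
      (Fermat.Agent.S34.H61.gaussOne M q O₁ K₀) (Fermat.Agent.S34.H61.gaussTwoForm M q O₁ w K₀)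
      hgood.le₁₁ hgood.le₁₂ hboth.1 hboth.2 α' β' hαC hβC s
      ((Fermat.Agent.S34.H61.tauForm (M * q) K₀ σ : ↥(ratForm (M * q) K₀) ≃+*
        ↥(ratForm (M * q) K₀)) : ↥(ratForm (M * q) K₀) →+* ↥(ratForm (M * q) K₀))
      (fun c hc => (Fermat.Agent.S34.H34.tauFormOn_mem_chart_iff (M * q) K₀ σ A hE hE' hsd
        (Fermat.Agent.S34.H61.alphaForm M q K₀ (⟨x₀, hxK⟩ : ↥(ratForm M K₀)))
        hx₀.alpha_rat c).2 hc)
      (fun y hy => by
        rw [nu_iff] at hy ⊢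
        exact (map_lt_iff _ (Fermat.Agent.S34.H61.tauForm (M * q) K₀ σ) htw.1 y).2 hy)
      (fun g => Fermat.Agent.S34.H61.tauForm_alphaForm M q K₀ σ (g : ↥(ratForm M K₀)))
      q kron1 kron2 surj1 c
  · -- conj 6
    haveI : IsDedekindDomain
        (↥(chart ↥(A.comap (algebraMap K₀ Kb)) (⟨x₀, hxK⟩ : ↥(ratForm M K₀))) ⧸
          Ideal.span {algebraMap ↥(A.comap (algebraMap K₀ Kb))
            ↥(chart ↥(A.comap (algebraMap K₀ Kb)) (⟨x₀, hxK⟩ : ↥(ratForm M K₀))) ϖ}) :=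
      Fermat.Agent.S34.H78.chart_dedekind_of_dsetup ϖ hϖ
        (Fermat.Agent.S34.H61.gaussForm M hqM A hA K₀) (⟨x₀, hxK⟩ : ↥(ratForm M K₀)) hS
    have hπ0 : algebraMap ↥(ratForm M K₀) ↥(ratForm (M * q) K₀)
        (algebraMap ↥(A.comap (algebraMap K₀ Kb)) ↥(ratForm M K₀) ϖ) ∈
        (Fermat.Agent.S34.H61.gaussOne M q O₁ K₀).nonunits :=
      (Fermat.Agent.S34.H10.algebraMap_mem_nonunits_iff
        (Fermat.Agent.S34.H61.gaussForm M hqM A hA K₀)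
        (Fermat.Agent.S34.H61.gaussOne M q O₁ K₀) hc₁
        (algebraMap ↥(A.comap (algebraMap K₀ Kb)) ↥(ratForm M K₀) ϖ)).2
        (Fermat.Agent.S18.H80.ds_unif_mem_nonunits hϖ hS)
    have hπ : α' (algebraMap ↥(A.comap (algebraMap K₀ Kb))
        ↥(chart ↥(A.comap (algebraMap K₀ Kb)) (⟨x₀, hxK⟩ : ↥(ratForm M K₀))) ϖ) ∈
        (Fermat.Agent.S34.H61.gaussOne M q O₁ K₀).nonunits := hπ0
    exact crossing_fib_val
      (algebraMap ↥(A.comap (algebraMap K₀ Kb))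
        ↥(chart ↥(A.comap (algebraMap K₀ Kb)) (⟨x₀, hxK⟩ : ↥(ratForm M K₀))) ϖ)
      (chart ↥(A.comap (algebraMap K₀ Kb))
        (Fermat.Agent.S34.H61.alphaForm M q K₀ (⟨x₀, hxK⟩ : ↥(ratForm M K₀)))) x
      (Fermat.Agent.S34.H61.gaussOne M q O₁ K₀) (Fermat.Agent.S34.H61.gaussTwoForm M q O₁ w K₀)
      hgood.le₁₁ hgood.le₁₂ hboth.1 hboth.2 α' β' hαC hβC hπ s q hqp.two_le kron1 kron2 surj1

/-- **Leaf (L6b)**: the closed points of the finite chart of the concrete model on both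
components are crossing points, for the standard base function. -/
theorem crossFrobLeafB₁_std : CrossFrobLeafB₁ StdB := by
  intro M q _ _ hqM _ A hA hAtop O₁ w hTG x₀ hx₀ hB K₀ _ _ ϖ hϖ j hj σ σ' hσ m hm x hx hϖx hBoth
  haveI := hx.isPrime
  obtain ⟨h3, h6⟩ := cross36_stdV M q hqM A hA hAtop O₁ w hTG x₀ hx₀ hB K₀ ϖ hϖ j hj σ' σ hσ x
    hBoth
  obtain ⟨h4, h5⟩ := Fermat.Agent.S35.H95.branchNormal_stdV_of_both M q hqM A hA hAtop O₁ w hTG
    x₀ hx₀ K₀ ϖ hϖ j hj σ' (betaj_mem_chart_stdV hAtop hTG x₀ hx₀ hB K₀ ϖ j hj σ') x hBoth m hm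
  exact ⟨hBoth.1, hBoth.2, h3, h4, h5, h6⟩

end Std

end Fermat.Agent.S35.H53
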