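/-
S35 geometry, conj 6 of `H27.Crossing` in abstract form (helper53): TRANSVERSALITY of the two
components at a crossing point `x ⊇ P₁ + P₂` of the level-`M'q` chart `C`,

  `∀ r ∈ x, ∃ p₁ ∈ P₁, p₂ ∈ P₂, t ∉ x,  t r = p₁ + p₂`,

from the SAME inputs as (N3) (`H57.crossing_frob`): the two Kronecker congruences
`β g ≡ α (s⁻¹ g) ^ q (mod P₁)`, `α g ≡ β (s⁻¹ g) ^ q (mod P₂)` for `g` in the level-`M'` chart
`C'`, and `C = α(C') + P₁` — plus: the special fibre `C' / ϖ` of the level-`M'` chart is a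
Dedekind domain (`S34.H78.chart_dedekind_of_dsetup`), `α ϖ ∈ P₁`, `q ≥ 2`.

Proof: `y₀ = α⁻¹ x` is stable under `s²` (N3).  For `g ∈ y₀` put `h = s⁻² g ∈ y₀` and
`G = g - h ^ (q²)`; then `α G ∈ P₁ + P₂` by the two congruences.  In `C' / ϖ` the prime `ȳ₀` has an
element `ḡ ∉ ȳ₀²`, and then `Ḡ ∉ ȳ₀²` (`q² ≥ 2`), so `(Ḡ) = ȳ₀ I` with `I ⊄ ȳ₀`: every `a ∈ y₀`
satisfies `a c = G d + ϖ e` with `c ∉ y₀`.  (The fixed points of the `q²`-Frobenius on a smooth
curve are simple: no regularity of the surface is used.)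
Mathlib + `S35.H57.CrossFrob` only.
-/
import Mathlib
import Fermat.Agent.S35.H57.CrossFrob

set_option autoImplicit false

namespace Fermat.Agent.S35.H53

section Pure

variable {C C' : Type*} [CommRing C] [CommRing C']

/-- The image under `α` of `g - (s⁻² g) ^ (q²)` lies in `P₁ + P₂`. -/
theorem alpha_sub_pow_mem (α β : C' →+* C) (s : C' ≃+* C') (P₁ P₂ : Ideal C) (q : ℕ)
    (kron1 : ∀ g : C', β g - α (s.symm g) ^ q ∈ P₁)
    (kron2 : ∀ g : C', α g - β (s.symm g) ^ q ∈ P₂) (g : C') :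
    ∃ p₁ ∈ P₁, ∃ p₂ ∈ P₂, α (g - s.symm (s.symm g) ^ (q ^ 2)) = p₁ + p₂ := by
  have h1 := Fermat.Agent.S35.H57.pow_sub_pow_mem_of_sub_mem P₁ (kron1 (s.symm g)) q
  refine ⟨β (s.symm g) ^ q - (α (s.symm (s.symm g)) ^ q) ^ q, h1,
    α g - β (s.symm g) ^ q, kron2 g, ?_⟩
  rw [map_sub, map_pow, pow_two, pow_mul]
  ring

/-- **Transversality at a crossing point, ideal form.** -/
theorem crossing_fib (α β : C' →+* C) (s : C' ≃+* C') (π' : C')
    [IsDedekindDomain (C' ⧸ Ideal.span {π'})]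
    (P₁ P₂ x : Ideal C) [hx : x.IsPrime] (hP₁ : P₁ ≤ x) (hP₂ : P₂ ≤ x) (hπ : α π' ∈ P₁)
    (q : ℕ) (hq : 2 ≤ q)
    (kron1 : ∀ g : C', β g - α (s.symm g) ^ q ∈ P₁)
    (kron2 : ∀ g : C', α g - β (s.symm g) ^ q ∈ P₂)
    (surj1 : ∀ c : C, ∃ g : C', c - α g ∈ P₁) (r : C) (hr : r ∈ x) :
    ∃ p₁ ∈ P₁, ∃ p₂ ∈ P₂, ∃ t : C, t ∉ x ∧ t * r = p₁ + p₂ := by
  classical
  have hq2 : 0 < q ^ 2 := by positivity
  have hq22 : 2 ≤ q ^ 2 := by nlinarith
  have hπy : Ideal.span {π'} ≤ x.comap α := by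
    rw [Ideal.span_singleton_le_iff_mem]
    exact hP₁ hπ
  have hmemY : ∀ a : C', Ideal.Quotient.mk (Ideal.span {π'}) a ∈
      (x.comap α).map (Ideal.Quotient.mk (Ideal.span {π'})) ↔ a ∈ x.comap α :=
    fun a => Ideal.mem_quotient_iff_mem hπy
  -- stability of `α⁻¹ x` under `s²`
  have hstab : ∀ g : C', α (s (s g)) ∈ x ↔ α g ∈ x := by
    intro g
    have h := Fermat.Agent.S35.H57.alpha_frob_sub_mem α β s P₁ P₂ x hP₁ hP₂ q kron1 kron2 g
    constructor
    · intro hg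
      have h2 : α g ^ (q ^ 2) ∈ x := by
        have e : α g ^ (q ^ 2) = α (s (s g)) - (α (s (s g)) - α g ^ (q ^ 2)) := by ring
        rw [e]
        exact x.sub_mem hg h
      exact hx.mem_of_pow_mem _ h2
    · intro hg
      have h2 : α g ^ (q ^ 2) ∈ x := x.pow_mem_of_mem hg _ hq2
      have e : α (s (s g)) = (α (s (s g)) - α g ^ (q ^ 2)) + α g ^ (q ^ 2) := by ring
      rw [e]
      exact x.add_mem h h2
  obtain ⟨a, ha⟩ := surj1 r
  have haY : α a ∈ x := by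
    have e : α a = r - (r - α a) := by ring
    rw [e]
    exact x.sub_mem hr (hP₁ ha)
  have h1x : (1 : C) ∉ x := fun h => hx.ne_top ((Ideal.eq_top_iff_one _).2 h)
  by_cases hbot : (x.comap α).map (Ideal.Quotient.mk (Ideal.span {π'})) = ⊥
  · -- the degenerate case: `α⁻¹ x = (ϖ)`
    have h0 : Ideal.Quotient.mk (Ideal.span {π'}) a ∈
        (x.comap α).map (Ideal.Quotient.mk (Ideal.span {π'})) := (hmemY a).2 haY
    rw [hbot, Ideal.mem_bot] at h0
    have ha' : a ∈ Ideal.span {π'} := Ideal.Quotient.eq_zero_iff_mem.1 h0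
    obtain ⟨b, rfl⟩ := Ideal.mem_span_singleton'.1 ha'
    refine ⟨r, ?_, 0, P₂.zero_mem, 1, h1x, by ring⟩
    have e : r = (r - α (b * π')) + α b * α π' := by
      rw [map_mul]
      ring
    rw [e]
    exact P₁.add_mem ha (P₁.mul_mem_left _ hπ)
  · -- the main case
    have hYprime : ((x.comap α).map (Ideal.Quotient.mk (Ideal.span {π'}))).IsPrime :=
      Ideal.map_isPrime_of_surjective Ideal.Quotient.mk_surjective
        (by rw [Ideal.mk_ker]; exact hπy)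
    obtain ⟨gb, hgb1, hgb2⟩ := Ideal.exists_mem_pow_notMem_pow_succ
      ((x.comap α).map (Ideal.Quotient.mk (Ideal.span {π'}))) hbot hYprime.ne_top 1
    rw [pow_one] at hgb1
    obtain ⟨g, rfl⟩ := Ideal.Quotient.mk_surjective gb
    have hg : α g ∈ x := (hmemY g).1 hgb1
    have hh₂ : α (s.symm (s.symm g)) ∈ x := by
      rw [← hstab, s.apply_symm_apply, s.apply_symm_apply]
      exact hg
    have hGx : g - s.symm (s.symm g) ^ (q ^ 2) ∈ x.comap α := by
      show α (g - s.symm (s.symm g) ^ (q ^ 2)) ∈ x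
      rw [map_sub, map_pow]
      exact x.sub_mem hg (x.pow_mem_of_mem hh₂ _ hq2)
    have hGY := (hmemY _).2 hGx
    have hGY2 : Ideal.Quotient.mk (Ideal.span {π'}) (g - s.symm (s.symm g) ^ (q ^ 2)) ∉
        (x.comap α).map (Ideal.Quotient.mk (Ideal.span {π'})) ^ 2 := by
      intro hGm
      apply hgb2
      have e : Ideal.Quotient.mk (Ideal.span {π'}) g =
          Ideal.Quotient.mk (Ideal.span {π'}) (g - s.symm (s.symm g) ^ (q ^ 2)) +
            Ideal.Quotient.mk (Ideal.span {π'}) (s.symm (s.symm g)) ^ (q ^ 2) := by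
        rw [map_sub, map_pow]
        ring
      rw [e]
      refine Ideal.add_mem _ hGm ?_
      exact Ideal.pow_le_pow_right hq22
        (Ideal.pow_mem_pow ((hmemY (s.symm (s.symm g))).2 hh₂) _)
    have hle : Ideal.span {Ideal.Quotient.mk (Ideal.span {π'})
        (g - s.symm (s.symm g) ^ (q ^ 2))} ≤
        (x.comap α).map (Ideal.Quotient.mk (Ideal.span {π'})) :=
      (Ideal.span_singleton_le_iff_mem _).2 hGY
    obtain ⟨I, hI⟩ := Ideal.dvd_iff_le.2 hle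
    have hInot : ¬ I ≤ (x.comap α).map (Ideal.Quotient.mk (Ideal.span {π'})) := by
      intro hIY
      apply hGY2
      have h3 : Ideal.span {Ideal.Quotient.mk (Ideal.span {π'})
          (g - s.symm (s.symm g) ^ (q ^ 2))} ≤
          (x.comap α).map (Ideal.Quotient.mk (Ideal.span {π'})) ^ 2 := by
        rw [hI, pow_two]
        exact Ideal.mul_mono_right hIY
      exact h3 (Ideal.subset_span rfl)
    obtain ⟨cb, hcbI, hcbY⟩ := SetLike.not_le_iff_exists.1 hInot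
    obtain ⟨c, rfl⟩ := Ideal.Quotient.mk_surjective cb
    have hcy : α c ∉ x := fun h => hcbY ((hmemY c).2 h)
    have hac : Ideal.Quotient.mk (Ideal.span {π'}) a * Ideal.Quotient.mk (Ideal.span {π'}) c ∈
        Ideal.span {Ideal.Quotient.mk (Ideal.span {π'})
          (g - s.symm (s.symm g) ^ (q ^ 2))} := by
      rw [hI]
      exact Ideal.mul_mem_mul ((hmemY a).2 haY) hcbI
    obtain ⟨db, hdb⟩ := Ideal.mem_span_singleton'.1 hac
    obtain ⟨d, rfl⟩ := Ideal.Quotient.mk_surjective db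
    have hker : a * c - d * (g - s.symm (s.symm g) ^ (q ^ 2)) ∈ Ideal.span {π'} := by
      rw [← Ideal.Quotient.eq_zero_iff_mem, map_sub, map_mul, map_mul, hdb, sub_self]
    obtain ⟨e, he⟩ := Ideal.mem_span_singleton'.1 hker
    obtain ⟨p₁, hp₁, p₂, hp₂, hαG⟩ := alpha_sub_pow_mem α β s P₁ P₂ q kron1 kron2 g
    have h1 : α a * α c = α d * (p₁ + p₂) + α e * α π' := by
      have h2 := congrArg α he
      rw [map_mul, map_sub, map_mul, map_mul, hαG] at h2
      linear_combination -h2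
    refine ⟨α c * (r - α a) + α d * p₁ + α e * α π', ?_, α d * p₂, P₂.mul_mem_left _ hp₂,
      α c, hcy, ?_⟩
    · exact P₁.add_mem (P₁.add_mem (P₁.mul_mem_left _ ha) (P₁.mul_mem_left _ hp₁))
        (P₁.mul_mem_left _ hπ)
    · linear_combination h1

end Pure

section Val

variable {A₀ F : Type*} [CommRing A₀] [Field F] [Algebra A₀ F]

/-- **Transversality at a crossing point, chart form** (conj 6 of `H27.Crossing`): `C` is a
chart contained in the two valuation rings `V₁`, `V₂`; `x` a prime ideal containing both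
components; `α, β` the two degeneracy maps from the lower chart `C'`, whose special fibre
`C' / ϖ` is a Dedekind domain; `s` the Frobenius lift on `C'`. -/
theorem crossing_fib_val {C' : Type*} [CommRing C'] (π' : C')
    [IsDedekindDomain (C' ⧸ Ideal.span {π'})]
    (C : Subalgebra A₀ F) (x : Ideal ↥C) [x.IsPrime]
    (V₁ V₂ : ValuationSubring F) (hCV₁ : ∀ c ∈ C, c ∈ V₁) (hCV₂ : ∀ c ∈ C, c ∈ V₂)
    (hx₁ : ∀ c : ↥C, (c : F) ∈ V₁.nonunits → c ∈ x)
    (hx₂ : ∀ c : ↥C, (c : F) ∈ V₂.nonunits → c ∈ x)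
    (α β : C' →+* F) (hαC : ∀ g, α g ∈ C) (hβC : ∀ g, β g ∈ C) (hπ : α π' ∈ V₁.nonunits)
    (s : C' ≃+* C') (q : ℕ) (hq : 2 ≤ q)
    (kron1 : ∀ g : C', β g - α (s.symm g) ^ q ∈ V₁.nonunits)
    (kron2 : ∀ g : C', α g - β (s.symm g) ^ q ∈ V₂.nonunits)
    (surj1 : ∀ c ∈ C, ∃ g : C', c - α g ∈ V₁.nonunits) :
    ∀ r : ↥C, r ∈ x → ∃ p₁ p₂ t : ↥C, t ∉ x ∧ (p₁ : F) ∈ V₁.nonunits ∧
      (p₂ : F) ∈ V₂.nonunits ∧ t * r = p₁ + p₂ := by
  intro r hr
  obtain ⟨p₁, hp₁, p₂, hp₂, t, ht, h⟩ := crossing_fib (α.codRestrict C hαC)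
    (β.codRestrict C hβC) s π' (Fermat.Agent.S35.H57.compIdeal C V₁ hCV₁)
    (Fermat.Agent.S35.H57.compIdeal C V₂ hCV₂) x hx₁ hx₂ hπ q hq (fun g => kron1 g)
    (fun g => kron2 g) (fun c => surj1 _ c.2) r hr
  exact ⟨p₁, p₂, t, ht, hp₁, hp₂, h⟩

end Val

end Fermat.Agent.S35.H53
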